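import Mathlib.ModelTheory.Encoding
import Mathlib.ModelTheory.Semantics
import Mathlib.Computability.Primrec.List

/-!
# Words of terms and formulas

A word is the list of the codes of the symbols of a term or formula. At each depth the finitely many
words of a finite language are listed, together with the names of the terms at a tuple of names: the
name of an application is computed from the symbol and the names of the arguments, and the name of
a witness from the formula and the tuple.
-/

set_option autoImplicit false

namespace FA.EffectiveCompleteness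

open FirstOrder Language

theorem encode_map_encode {α : Type*} [Encodable α] :
    ∀ l : List α, Encodable.encode (l.map Encodable.encode) = Encodable.encode l
  | [] => rfl
  | a :: l => by simp [encode_map_encode l]

theorem encode_le_encode_append_left (a b : List ℕ) :
    Encodable.encode a ≤ Encodable.encode (a ++ b) := by
  induction a with
  | nil => simp
  | cons x a ih =>
    simp only [List.cons_append, Encodable.encode_list_cons, Nat.succ_le_succ_iff]
    rcases ih.eq_or_lt with e | h
    · exact (congrArg (Nat.pair _) e).le
    · exact (Nat.pair_lt_pair_right _ h).le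

theorem encode_le_encode_append_right (a b : List ℕ) :
    Encodable.encode b ≤ Encodable.encode (a ++ b) := by
  induction a with
  | nil => exact le_rfl
  | cons x a ih =>
    simp only [List.cons_append, Encodable.encode_list_cons]
    exact ih.trans ((Nat.right_le_pair _ _).trans (Nat.le_succ _))

theorem le_encode_of_mem {l : List ℕ} {a : ℕ} (h : a ∈ l) : a < Encodable.encode l := by
  induction l with
  | nil => cases h
  | cons x l ih =>
    simp only [Encodable.encode_list_cons, Encodable.encode_nat, Nat.lt_succ_iff]
    rcases List.mem_cons.1 h with rfl | h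
    · exact Nat.left_le_pair _ _
    · exact (ih h).le.trans (Nat.right_le_pair _ _)

/-- The lists of length `n` over a list. -/
def tuples {α : Type*} (S : List α) : ℕ → List (List α)
  | 0 => [([] : List α)]
  | n + 1 => (tuples S n).flatMap fun t => S.map fun s => s :: t

theorem mem_tuples {α : Type*} {S : List α} :
    ∀ {n : ℕ} {t : List α}, t ∈ tuples S n ↔ t.length = n ∧ ∀ a ∈ t, a ∈ S
  | 0, t => by cases t <;> simp [tuples]
  | n + 1, t => by
    cases t with
    | nil => simp [tuples]
    | cons a t =>
      simp only [tuples, List.mem_flatMap, List.mem_map, List.cons.injEq, mem_tuples,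
        List.length_cons, Nat.add_right_cancel_iff, List.forall_mem_cons]
      exact ⟨fun ⟨_, h, _, hs, rfl, rfl⟩ => ⟨h.1, hs, h.2⟩, fun h => ⟨t, ⟨h.1, h.2.2⟩, a, h.2.1,
        rfl, rfl⟩⟩

/-- The name of an application. -/
def appName (c : ℕ) (as : List ℕ) : ℕ :=
  Nat.pair 0 (Encodable.encode (c, as))

/-- The name of the witness of a universal formula with the given body. -/
def witName (w xs : List ℕ) : ℕ :=
  Nat.pair 1 (Encodable.encode (w, xs))

theorem lt_appName {c a : ℕ} {as : List ℕ} (h : a ∈ as) : a < appName c as :=
  (le_encode_of_mem h).trans_le ((Nat.right_le_pair c _).trans (Nat.right_le_pair 0 _))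

theorem lt_witName {w xs : List ℕ} {a : ℕ} (h : a ∈ xs) : a < witName w xs :=
  (le_encode_of_mem h).trans_le ((Nat.right_le_pair _ _).trans (Nat.right_le_pair 1 _))

/-- The symbol of a variable in a term. -/
def varSym (i : ℕ) : ℕ :=
  2 * (2 * i + 1)

/-- The symbol of a function in a term. -/
def funSym (c : ℕ) : ℕ :=
  2 * c + 1

/-- The symbol of a term in a formula. -/
def termSym (n : ℕ) (u : List ℕ) : ℕ :=
  2 * Nat.pair n (Encodable.encode u)

/-- The symbol of a relation in a formula. -/
def relSym (c : ℕ) : ℕ :=
  2 * (2 * c) + 1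

/-- The symbol of a number in a formula. -/
def natSym (k : ℕ) : ℕ :=
  2 * (2 * k + 1) + 1

variable {L : Language.{0, 0}} [Encodable (Σ i, L.Functions i)] [Encodable (Σ i, L.Relations i)]

/-- The word of a term. -/
def termWord {n : ℕ} (t : L.Term (Empty ⊕ Fin n)) : List ℕ :=
  t.listEncode.map Encodable.encode

/-- The word of a formula. -/
def formWord {n : ℕ} (φ : L.BoundedFormula Empty n) : List ℕ :=
  φ.listEncode.map Encodable.encode

omit [Encodable (Σ i, L.Relations i)] in
theorem termWord_var {n : ℕ} (i : Fin n) :
    termWord (Term.var (Sum.inr i) : L.Term (Empty ⊕ Fin n)) = [varSym i] := by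
  simp [termWord, Term.listEncode, varSym]
  rfl

omit [Encodable (Σ i, L.Relations i)] in
theorem termWord_func {n k : ℕ} (f : L.Functions k) (ts : Fin k → L.Term (Empty ⊕ Fin n)) :
    termWord (Term.func f ts) = funSym (Encodable.encode (⟨k, f⟩ : Σ i, L.Functions i)) ::
      (List.ofFn fun i => termWord (ts i)).flatten := by
  simp only [termWord, Term.listEncode, List.map_cons, Encodable.encode_inr, funSym,
    List.flatMap_def, List.ofFn_eq_map, List.map_flatten, List.map_map]
  rfl

theorem termSym_eq {n : ℕ} (t : L.Term (Empty ⊕ Fin n)) :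
    Encodable.encode (Sum.inl ⟨n, t⟩ : (Σ k, L.Term (Empty ⊕ Fin k)) ⊕
      ((Σ n, L.Relations n) ⊕ ℕ)) = termSym n (termWord t) := by
  simp only [termSym, termWord, encode_map_encode, Encodable.encode_inl]
  rfl

theorem formWord_falsum {n : ℕ} :
    formWord (BoundedFormula.falsum : L.BoundedFormula Empty n) = [natSym (n + 2)] := by
  simp [formWord, BoundedFormula.listEncode, natSym]

theorem formWord_equal {n : ℕ} (t u : L.Term (Empty ⊕ Fin n)) :
    formWord (BoundedFormula.equal t u) = [termSym n (termWord t), termSym n (termWord u)] := by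
  simp only [formWord, BoundedFormula.listEncode, List.map_cons, List.map_nil, termSym_eq]

theorem formWord_rel {n k : ℕ} (R : L.Relations k) (ts : Fin k → L.Term (Empty ⊕ Fin n)) :
    formWord (BoundedFormula.rel R ts) =
      [relSym (Encodable.encode (⟨k, R⟩ : Σ i, L.Relations i)), natSym n] ++
        List.ofFn fun i => termSym n (termWord (ts i)) := by
  simp only [formWord, BoundedFormula.listEncode, List.map_append, List.map_cons, List.map_nil,
    List.map_map, Encodable.encode_inr, Encodable.encode_inl, relSym, natSym, Encodable.encode_nat,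
    List.ofFn_eq_map]
  exact congrArg _ (List.map_congr_left fun i _ => termSym_eq (ts i))

theorem formWord_imp {n : ℕ} (φ ψ : L.BoundedFormula Empty n) :
    formWord (φ.imp ψ) = natSym 0 :: (formWord φ ++ formWord ψ) := by
  simp [formWord, BoundedFormula.listEncode, natSym]

theorem formWord_all {n : ℕ} (φ : L.BoundedFormula Empty (n + 1)) :
    formWord φ.all = natSym 1 :: formWord φ := by
  simp [formWord, BoundedFormula.listEncode, natSym]

theorem formWord_injective {n : ℕ} :
    Function.Injective (formWord (L := L) (n := n)) := by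
  intro φ ψ h
  have h1 := BoundedFormula.listEncode_sigma_injective (α := Empty) (a₁ := ⟨n, φ⟩) (a₂ := ⟨n, ψ⟩)
    (List.map_injective_iff.2 Encodable.encode_injective h)
  simpa using h1

/-- The name of a term at a tuple of names. -/
def termName (xs : List ℕ) {n : ℕ} : L.Term (Empty ⊕ Fin n) → ℕ
  | .var (.inl e) => e.elim
  | .var (.inr i) => xs.getD i 0
  | .func (l := k) f ts =>
    appName (Encodable.encode (⟨k, f⟩ : Σ i, L.Functions i))
      (List.ofFn fun i => termName xs (ts i))

variable [Finite (Σ i, L.Functions i)] [Finite (Σ i, L.Relations i)]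

variable (L) in
/-- The function symbols, by arity and code. -/
noncomputable def funSyms : List (ℕ × ℕ) :=
  letI := Fintype.ofFinite (Σ i, L.Functions i)
  (Finset.univ : Finset (Σ i, L.Functions i)).toList.map fun p => (p.1, Encodable.encode p)

variable (L) in
/-- The relation symbols, by arity and code. -/
noncomputable def relSyms : List (ℕ × ℕ) :=
  letI := Fintype.ofFinite (Σ i, L.Relations i)
  (Finset.univ : Finset (Σ i, L.Relations i)).toList.map fun p => (p.1, Encodable.encode p)

omit [Encodable (Σ i, L.Relations i)] [Finite (Σ i, L.Relations i)] in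
theorem mem_funSyms {k c : ℕ} :
    (k, c) ∈ funSyms L ↔ ∃ f : L.Functions k, c = Encodable.encode (⟨k, f⟩ : Σ i, L.Functions i) :=
  by simp [funSyms, eq_comm]

omit [Encodable (Σ i, L.Functions i)] [Finite (Σ i, L.Functions i)] in
theorem mem_relSyms {k c : ℕ} :
    (k, c) ∈ relSyms L ↔ ∃ f : L.Relations k, c = Encodable.encode (⟨k, f⟩ : Σ i, L.Relations i) :=
  by simp [relSyms, eq_comm]

variable (L) in
/-- Words and names of the terms up to a depth. -/
noncomputable def termList (n : ℕ) (xs : List ℕ) : ℕ → List (List ℕ × ℕ)
  | 0 => (List.range n).map fun i => ([varSym i], xs.getD i 0)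
  | d + 1 => termList n xs d ++ (funSyms L).flatMap fun kc =>
      (tuples (termList n xs d) kc.1).map fun ts =>
        (funSym kc.2 :: (ts.map Prod.fst).flatten, appName kc.2 (ts.map Prod.snd))

omit [Encodable (Σ i, L.Relations i)] [Finite (Σ i, L.Relations i)] in
theorem termList_sound {n : ℕ} {xs : List ℕ} :
    ∀ {d : ℕ} {p : List ℕ × ℕ}, p ∈ termList L n xs d →
      ∃ t : L.Term (Empty ⊕ Fin n), p = (termWord t, termName xs t)
  | 0, p, h => by
    obtain ⟨i, hi, rfl⟩ := List.mem_map.1 h
    exact ⟨.var (.inr ⟨i, List.mem_range.1 hi⟩), by rw [termWord_var]; rfl⟩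
  | d + 1, p, h => by
    rcases List.mem_append.1 h with h | h
    · exact termList_sound h
    obtain ⟨⟨k, c⟩, hkc, h⟩ := List.mem_flatMap.1 h
    obtain ⟨ts, hts, rfl⟩ := List.mem_map.1 h
    obtain ⟨f, rfl⟩ := mem_funSyms.1 hkc
    obtain ⟨hl, hmem⟩ := mem_tuples.1 hts
    choose t ht using fun i : Fin k => termList_sound (hmem (ts[i.1]'(hl.symm ▸ i.2))
      (List.getElem_mem _))
    refine ⟨.func f t, ?_⟩
    have e : ts = List.ofFn fun i => (termWord (t i), termName xs (t i)) :=
      List.ext_getElem (by simpa using hl) fun i h1 h2 => by simp [← ht]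
    rw [termWord_func, termName, e]
    simp [Function.comp_def]

omit [Encodable (Σ i, L.Relations i)] [Finite (Σ i, L.Relations i)] in
theorem termList_mono {n : ℕ} {xs : List ℕ} {d d' : ℕ} (h : d ≤ d') :
    ∀ p ∈ termList L n xs d, p ∈ termList L n xs d' := by
  induction h with
  | refl => exact fun _ hp => hp
  | step _ ih => exact fun p hp => List.mem_append_left _ (ih p hp)

omit [Encodable (Σ i, L.Relations i)] [Finite (Σ i, L.Relations i)] in
theorem termList_complete {n : ℕ} {xs : List ℕ} :
    ∀ (t : L.Term (Empty ⊕ Fin n)) {d : ℕ}, (termWord t).length ≤ d →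
      (termWord t, termName xs t) ∈ termList L n xs d
  | .var (.inl e), _, _ => e.elim
  | .var (.inr i), d, _ => termList_mono (Nat.zero_le d) _
      (List.mem_map.2 ⟨i, List.mem_range.2 i.2, by rw [termWord_var]; rfl⟩)
  | .func (l := k) f ts, d, hd => by
    rw [termWord_func] at hd
    obtain ⟨d, rfl⟩ : ∃ e, d = e + 1 := ⟨d - 1, by simp at hd; omega⟩
    refine List.mem_append_right _ (List.mem_flatMap.2 ⟨_, mem_funSyms.2 ⟨f, rfl⟩,
      List.mem_map.2 ⟨List.ofFn fun i => (termWord (ts i), termName xs (ts i)), ?_, ?_⟩⟩)
    · refine mem_tuples.2 ⟨List.length_ofFn, fun a ha => ?_⟩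
      obtain ⟨i, rfl⟩ := List.mem_ofFn.1 ha
      refine termList_complete (ts i) (le_trans ?_ (Nat.le_of_succ_le_succ hd))
      exact (List.sublist_flatten_of_mem
        ((List.mem_ofFn (f := fun i => termWord (ts i))).2 ⟨i, rfl⟩)).length_le
    · rw [termWord_func, termName]
      simp [Function.comp_def]

variable (L) in
/-- The atomic formulas of a depth. -/
noncomputable def atomList (d n : ℕ) : List (ℕ × List ℕ) :=
  (n, [natSym (n + 2)]) :: ((termList L n [] d).flatMap fun t =>
      (termList L n [] d).map fun u => (n, [termSym n t.1, termSym n u.1])) ++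
    (relSyms L).flatMap fun kc => (tuples (termList L n [] d) kc.1).map fun ts =>
      (n, [relSym kc.2, natSym n] ++ ts.map fun t => termSym n t.1)

/-- The implications between listed formulas. -/
def impList (F : List (ℕ × List ℕ)) : List (ℕ × List ℕ) :=
  F.flatMap fun p => F.flatMap fun q =>
    if p.1 = q.1 then [(p.1, natSym 0 :: (p.2 ++ q.2))] else []

/-- The universal formulas over listed formulas. -/
def allList (F : List (ℕ × List ℕ)) : List (ℕ × List ℕ) :=
  F.flatMap fun p => if 1 ≤ p.1 then [(p.1 - 1, natSym 1 :: p.2)] else []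

variable (L) in
/-- Number of variables and word of the formulas up to a depth. -/
noncomputable def formList : ℕ → List (ℕ × List ℕ)
  | 0 => []
  | d + 1 => formList d ++ (List.range (d + 1)).flatMap (atomList L d) ++ impList (formList d) ++
      allList (formList d)

theorem formList_mono {d d' : ℕ} (h : d ≤ d') : ∀ p ∈ formList L d, p ∈ formList L d' := by
  induction h with
  | refl => exact fun _ hp => hp
  | step _ ih =>
    exact fun p hp => List.mem_append_left _ (List.mem_append_left _ (List.mem_append_left _
      (ih p hp)))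

theorem formList_sound : ∀ {d : ℕ} {p : ℕ × List ℕ}, p ∈ formList L d →
    ∃ φ : L.BoundedFormula Empty p.1, p.2 = formWord φ
  | 0, p, h => by cases h
  | d + 1, p, h => by
    simp only [formList, List.mem_append] at h
    rcases h with ((h | h) | h) | h
    · exact formList_sound h
    · obtain ⟨n, -, h⟩ := List.mem_flatMap.1 h
      simp only [atomList, List.cons_append, List.mem_cons, List.mem_append, List.mem_flatMap,
        List.mem_map] at h
      rcases h with rfl | ⟨t, ht, u, hu, rfl⟩ | ⟨⟨k, c⟩, hkc, ts, hts, rfl⟩
      · exact ⟨.falsum, formWord_falsum.symm⟩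
      · obtain ⟨t', rfl⟩ := termList_sound ht
        obtain ⟨u', rfl⟩ := termList_sound hu
        exact ⟨.equal t' u', (formWord_equal _ _).symm⟩
      · obtain ⟨R, rfl⟩ := mem_relSyms.1 hkc
        obtain ⟨hl, hmem⟩ := mem_tuples.1 hts
        choose t ht using fun i : Fin k => termList_sound (hmem (ts[i.1]'(hl.symm ▸ i.2))
          (List.getElem_mem _))
        refine ⟨.rel R t, ?_⟩
        have e : ts = List.ofFn fun i => (termWord (t i), termName [] (t i)) :=
          List.ext_getElem (by simpa using hl) fun i h1 h2 => by simp [← ht]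
        rw [formWord_rel, e]
        simp [Function.comp_def]
    · simp only [impList, List.mem_flatMap] at h
      obtain ⟨⟨n, a⟩, hp, ⟨m, b⟩, hq, h⟩ := h
      split at h
      · rename_i e
        obtain rfl : n = m := e
        rw [List.mem_singleton] at h
        subst h
        obtain ⟨φ, hφ⟩ := formList_sound hp
        obtain ⟨ψ, hψ⟩ := formList_sound hq
        dsimp only at hφ hψ
        exact ⟨φ.imp ψ, by dsimp only; rw [hφ, hψ, formWord_imp]⟩
      · cases h
    · simp only [allList, List.mem_flatMap] at h
      obtain ⟨⟨n, a⟩, hp, h⟩ := h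
      split at h
      · rename_i e
        obtain ⟨m, rfl⟩ : ∃ m, n = m + 1 := ⟨n - 1, by simp at e; omega⟩
        rw [List.mem_singleton] at h
        subst h
        obtain ⟨φ, hφ⟩ := formList_sound hp
        dsimp only at hφ
        exact ⟨φ.all, by dsimp only; rw [hφ]; exact (formWord_all φ).symm⟩
      · cases h

theorem length_le_encode : ∀ l : List ℕ, l.length ≤ Encodable.encode l
  | [] => Nat.zero_le _
  | a :: l => by
    simp only [List.length_cons, Encodable.encode_list_cons]
    exact Nat.succ_le_succ ((length_le_encode l).trans (Nat.right_le_pair _ _))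

/-- **Every formula is listed**, at a depth bounded by its code. -/
theorem formList_complete : ∀ {n : ℕ} (φ : L.BoundedFormula Empty n) {d : ℕ},
    n + Encodable.encode (formWord φ) < d → (n, formWord φ) ∈ formList L d := by
  intro n φ
  induction φ with
  | @falsum n =>
    intro d hd
    obtain ⟨d, rfl⟩ : ∃ e, d = e + 1 := ⟨d - 1, by omega⟩
    simp only [formList, List.mem_append, List.mem_flatMap]
    refine .inl (.inl (.inr ⟨n, List.mem_range.2 (by omega), ?_⟩))
    simp [atomList, formWord_falsum]
  | @equal n t u =>
    intro d hd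
    obtain ⟨d, rfl⟩ : ∃ e, d = e + 1 := ⟨d - 1, by omega⟩
    rw [formWord_equal] at hd ⊢
    have key : ∀ x : L.Term (Empty ⊕ Fin n), termSym n (termWord x) ∈
        [termSym n (termWord t), termSym n (termWord u)] → (termWord x).length ≤ d := fun x hx => by
      have h1 := le_encode_of_mem hx
      have h2 : Encodable.encode (termWord x) ≤ termSym n (termWord x) :=
        (Nat.right_le_pair n _).trans (Nat.le_mul_of_pos_left _ Nat.two_pos)
      have h3 := length_le_encode (termWord x)
      omega
    simp only [formList, List.mem_append, List.mem_flatMap]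
    refine .inl (.inl (.inr ⟨n, List.mem_range.2 (by omega), ?_⟩))
    simp only [atomList, List.cons_append, List.mem_cons, List.mem_append, List.mem_flatMap,
      List.mem_map]
    exact .inr (.inl ⟨_, termList_complete t (key t List.mem_cons_self), _,
      termList_complete u (key u (List.mem_cons_of_mem _ List.mem_cons_self)), rfl⟩)
  | @rel n k R ts =>
    intro d hd
    obtain ⟨d, rfl⟩ : ∃ e, d = e + 1 := ⟨d - 1, by omega⟩
    rw [formWord_rel] at hd ⊢
    have key : ∀ i, (termWord (ts i)).length ≤ d := fun i => by
      have h1 := le_encode_of_mem (a := termSym n (termWord (ts i)))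
        (List.mem_append_right [relSym (Encodable.encode (⟨k, R⟩ : Σ i, L.Relations i)), natSym n]
          (List.mem_ofFn.2 ⟨i, rfl⟩ : _ ∈ List.ofFn fun i => termSym n (termWord (ts i))))
      have h2 : Encodable.encode (termWord (ts i)) ≤ termSym n (termWord (ts i)) :=
        (Nat.right_le_pair n _).trans (Nat.le_mul_of_pos_left _ Nat.two_pos)
      have h3 := length_le_encode (termWord (ts i))
      omega
    simp only [formList, List.mem_append, List.mem_flatMap]
    refine .inl (.inl (.inr ⟨n, List.mem_range.2 (by omega), ?_⟩))
    simp only [atomList, List.cons_append, List.mem_cons, List.mem_append, List.mem_flatMap,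
      List.mem_map]
    refine .inr (.inr ⟨_, mem_relSyms.2 ⟨R, rfl⟩,
      List.ofFn fun i => (termWord (ts i), termName [] (ts i)), mem_tuples.2 ⟨List.length_ofFn,
        fun a ha => ?_⟩, ?_⟩)
    · obtain ⟨i, rfl⟩ := List.mem_ofFn.1 ha
      exact termList_complete _ (key i)
    · simp [Function.comp_def]
  | @imp n φ ψ ihφ ihψ =>
    intro d hd
    obtain ⟨d, rfl⟩ : ∃ e, d = e + 1 := ⟨d - 1, by omega⟩
    rw [formWord_imp] at hd ⊢
    have h1 := encode_le_encode_append_left (formWord φ) (formWord ψ)
    have h2 := encode_le_encode_append_right (formWord φ) (formWord ψ)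
    have h3 : Encodable.encode (formWord φ ++ formWord ψ) <
        Encodable.encode (natSym 0 :: (formWord φ ++ formWord ψ)) := by
      rw [Encodable.encode_list_cons]
      exact Nat.lt_succ_of_le (Nat.right_le_pair _ _)
    simp only [formList, List.mem_append]
    refine .inl (.inr (List.mem_flatMap.2 ⟨_, ihφ (d := d) (by omega), List.mem_flatMap.2
      ⟨_, ihψ (d := d) (by omega), ?_⟩⟩))
    simp
  | @all n φ ih =>
    intro d hd
    obtain ⟨d, rfl⟩ : ∃ e, d = e + 1 := ⟨d - 1, by omega⟩
    rw [formWord_all] at hd ⊢
    have h3 : natSym 1 + Encodable.encode (formWord φ) <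
        Encodable.encode (natSym 1 :: formWord φ) := by
      rw [Encodable.encode_list_cons]
      exact Nat.lt_succ_of_le (Nat.add_le_pair _ _)
    have h4 : natSym 1 = 7 := rfl
    simp only [formList, List.mem_append]
    refine .inr (List.mem_flatMap.2 ⟨_, ih (d := d) (by omega), ?_⟩)
    simp

end FA.EffectiveCompleteness
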