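import Mathlib.Computability.PartrecCode
import Fermat.Agent.EffectiveCompleteness.Syntax

/-!
# The clauses of a stage and their unsatisfiability

An atom says that a formula holds at a tuple of names, that two names denote one point, or that a
relation holds of names. The clauses are the conditions of truth, the axioms of equality and, at a
universal formula, one instance for each name and the instance at the witness.
-/

set_option autoImplicit false

namespace FA.EffectiveCompleteness

open FirstOrder Language

/-- A formula holds at a tuple of names. -/
def formAtom (w xs : List ℕ) : ℕ :=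
  Nat.pair 0 (Encodable.encode (w, xs))

/-- Two names denote one point. -/
def eqAtom (a b : ℕ) : ℕ :=
  Nat.pair 1 (Nat.pair a b)

/-- A relation holds of names. -/
def relAtom (c : ℕ) (as : List ℕ) : ℕ :=
  Nat.pair 2 (Encodable.encode (c, as))

variable (L : Language.{0, 0}) [Encodable (Σ i, L.Functions i)] [Encodable (Σ i, L.Relations i)]
  [Finite (Σ i, L.Functions i)] [Finite (Σ i, L.Relations i)]

/-- The clauses of the atomic formulas at a tuple. -/
noncomputable def atomClauses (N : ℕ) (xs : List ℕ) : List (List (ℕ × Bool)) :=
  [(formAtom [natSym (xs.length + 2)] xs, false)] ::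
    ((termList L xs.length xs N).flatMap fun t => (termList L xs.length xs N).flatMap fun u =>
      [ [(formAtom [termSym xs.length t.1, termSym xs.length u.1] xs, false),
          (eqAtom t.2 u.2, true)],
        [(formAtom [termSym xs.length t.1, termSym xs.length u.1] xs, true),
          (eqAtom t.2 u.2, false)] ]) ++
    (relSyms L).flatMap fun kc => (tuples (termList L xs.length xs N) kc.1).flatMap fun ts =>
      [ [(formAtom ([relSym kc.2, natSym xs.length] ++ ts.map fun t => termSym xs.length t.1) xs,
            false), (relAtom kc.2 (ts.map Prod.snd), true)],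
        [(formAtom ([relSym kc.2, natSym xs.length] ++ ts.map fun t => termSym xs.length t.1) xs,
            true), (relAtom kc.2 (ts.map Prod.snd), false)] ]

/-- The clauses of the implications. -/
noncomputable def impClauses (N : ℕ) : List (List (ℕ × Bool)) :=
  (formList L N).flatMap fun p => (formList L N).flatMap fun q =>
    if p.1 = q.1 then (tuples (List.range N) p.1).flatMap fun xs =>
      [ [(formAtom (natSym 0 :: (p.2 ++ q.2)) xs, false), (formAtom p.2 xs, false),
          (formAtom q.2 xs, true)],
        [(formAtom (natSym 0 :: (p.2 ++ q.2)) xs, true), (formAtom p.2 xs, true)],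
        [(formAtom (natSym 0 :: (p.2 ++ q.2)) xs, true), (formAtom q.2 xs, false)] ]
    else []

/-- The clauses of the universal formulas. -/
noncomputable def allClauses (N : ℕ) : List (List (ℕ × Bool)) :=
  (formList L N).flatMap fun p =>
    if 1 ≤ p.1 then (tuples (List.range N) (p.1 - 1)).flatMap fun xs =>
      [(formAtom (natSym 1 :: p.2) xs, true),
          (formAtom p.2 (xs ++ [witName p.2 xs]), false)] ::
        (List.range N).map fun c =>
          [(formAtom (natSym 1 :: p.2) xs, false), (formAtom p.2 (xs ++ [c]), true)]
    else []

/-- The axioms of equality. -/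
noncomputable def eqClauses (N : ℕ) : List (List (ℕ × Bool)) :=
  (List.range N).map (fun a => [(eqAtom a a, true)]) ++
    ((List.range N).flatMap fun a => (List.range N).map fun b =>
      [(eqAtom a b, false), (eqAtom b a, true)]) ++
    ((List.range N).flatMap fun a => (List.range N).flatMap fun b => (List.range N).map fun c =>
      [(eqAtom a b, false), (eqAtom b c, false), (eqAtom a c, true)]) ++
    ((funSyms L).flatMap fun kc =>
      (tuples ((List.range N).flatMap fun a => (List.range N).map fun b => (a, b)) kc.1).map
        fun ps =>
          (eqAtom (appName kc.2 (ps.map Prod.fst)) (appName kc.2 (ps.map Prod.snd)), true) ::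
          ps.map fun p => (eqAtom p.1 p.2, false)) ++
    (relSyms L).flatMap fun kc =>
      (tuples ((List.range N).flatMap fun a => (List.range N).map fun b => (a, b)) kc.1).map
        fun ps => (relAtom kc.2 (ps.map Prod.fst), false) ::
          (relAtom kc.2 (ps.map Prod.snd), true) :: ps.map fun p => (eqAtom p.1 p.2, false)

/-- The clauses of one stage. -/
noncomputable def stageClauses (N : ℕ) : List (List (ℕ × Bool)) :=
  ((List.range N).flatMap fun n => (tuples (List.range N) n).flatMap (atomClauses L N)) ++
    impClauses L N ++ allClauses L N ++ eqClauses L N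

/-- The clauses up to a stage, with one unit clause for each axiom found by then. -/
noncomputable def theoryClauses (ax : ℕ → List (List ℕ)) (N : ℕ) : List (List (ℕ × Bool)) :=
  (List.range (N + 1)).flatMap fun M =>
    stageClauses L M ++ (ax M).map fun w => [(formAtom w [], true)]

variable {L}

/-- An assignment satisfies all clauses. -/
def Satisfies (V : ℕ → Bool) (cs : List (List (ℕ × Bool))) : Prop :=
  ∀ c ∈ cs, ∃ l ∈ c, V l.1 = l.2

/-- Satisfiability of finitely many clauses by trying all assignments. -/
def satB (cs : List (List (ℕ × Bool))) : Bool :=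
  (tuples [true, false] (cs.flatten.map Prod.fst).length).any fun asg => cs.all fun c =>
    c.any fun l => decide (asg.getD ((cs.flatten.map Prod.fst).idxOf l.1) false = l.2)

theorem satB_iff (cs : List (List (ℕ × Bool))) : satB cs = true ↔ ∃ V, Satisfies V cs := by
  simp only [satB, List.any_eq_true, List.all_eq_true, decide_eq_true_eq]
  constructor
  · rintro ⟨asg, -, h⟩
    exact ⟨fun a => asg.getD ((cs.flatten.map Prod.fst).idxOf a) false, h⟩
  · rintro ⟨V, hV⟩
    refine ⟨(cs.flatten.map Prod.fst).map V, mem_tuples.2 ⟨List.length_map _, fun b _ => by
      cases b <;> simp⟩, fun c hc => ?_⟩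
    obtain ⟨l, hl, e⟩ := hV c hc
    refine ⟨l, hl, ?_⟩
    have hlt : (cs.flatten.map Prod.fst).idxOf l.1 < (cs.flatten.map Prod.fst).length :=
      List.idxOf_lt_length_iff.2 (List.mem_map_of_mem (List.mem_flatten_of_mem hc hl))
    rw [List.getD_eq_getElem?_getD, List.getElem?_map, List.getElem?_eq_getElem hlt,
      List.getElem_idxOf hlt]
    exact e

section Computability

theorem primrec_any {α β : Type*} [Primcodable α] [Primcodable β] {f : α → List β}
    {p : α → β → Bool} (hf : Primrec f) (hp : Primrec₂ p) :
    Primrec fun a => (f a).any (p a) := by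
  refine (Primrec.list_foldr hf (Primrec.const false) (Primrec.or.comp
    (hp.comp Primrec.fst (Primrec.fst.comp Primrec.snd))
    (Primrec.snd.comp Primrec.snd)).to₂).of_eq fun a => ?_
  induction f a with
  | nil => rfl
  | cons b l ih => simp only [List.foldr_cons, List.any_cons, ih]

theorem primrec_all {α β : Type*} [Primcodable α] [Primcodable β] {f : α → List β}
    {p : α → β → Bool} (hf : Primrec f) (hp : Primrec₂ p) :
    Primrec fun a => (f a).all (p a) := by
  refine (Primrec.list_foldr hf (Primrec.const true) (Primrec.and.comp
    (hp.comp Primrec.fst (Primrec.fst.comp Primrec.snd))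
    (Primrec.snd.comp Primrec.snd)).to₂).of_eq fun a => ?_
  induction f a with
  | nil => rfl
  | cons b l ih => simp only [List.foldr_cons, List.all_cons, ih]

theorem primrec_tuples {α : Type*} [Primcodable α] :
    Primrec₂ fun (S : List α) (n : ℕ) => tuples S n := by
  suffices h : Primrec fun q : List α × ℕ => tuples q.1 q.2 from h.to₂
  refine (Primrec.nat_rec' Primrec.snd (Primrec.const [([] : List α)])
    (h := fun (q : List α × ℕ) (p : ℕ × List (List α)) =>
      p.2.flatMap fun t => q.1.map fun s => s :: t) ?_).of_eq fun q => ?_
  · exact (Primrec.list_flatMap (Primrec.snd.comp Primrec.snd)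
      (Primrec.list_map (Primrec.fst.comp (Primrec.fst.comp Primrec.fst))
        (Primrec.list_cons.comp Primrec.snd (Primrec.snd.comp Primrec.fst)).to₂).to₂).to₂
  · induction q.2 with
    | zero => rfl
    | succ n ih => simp only [tuples, ← ih]

theorem primrec_appName : Primrec₂ appName :=
  (Primrec₂.natPair.comp (Primrec.const 0) Primrec.encode).to₂

theorem primrec_witName : Primrec₂ witName :=
  (Primrec₂.natPair.comp (Primrec.const 1) Primrec.encode).to₂

theorem primrec_formAtom : Primrec₂ formAtom :=
  (Primrec₂.natPair.comp (Primrec.const 0) Primrec.encode).to₂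

theorem primrec_relAtom : Primrec₂ relAtom :=
  (Primrec₂.natPair.comp (Primrec.const 2) Primrec.encode).to₂

theorem primrec_eqAtom : Primrec₂ eqAtom :=
  (Primrec₂.natPair.comp (Primrec.const 1) (Primrec₂.natPair.comp Primrec.fst Primrec.snd)).to₂

theorem primrec_termSym : Primrec₂ termSym :=
  (Primrec.nat_mul.comp (Primrec.const 2)
    (Primrec₂.natPair.comp Primrec.fst (Primrec.encode.comp Primrec.snd))).to₂

theorem primrec_natSym : Primrec natSym :=
  Primrec.succ.comp (Primrec.nat_mul.comp (Primrec.const 2)
    (Primrec.succ.comp (Primrec.nat_mul.comp (Primrec.const 2) Primrec.id)))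

theorem primrec_relSym : Primrec relSym :=
  Primrec.succ.comp (Primrec.nat_mul.comp (Primrec.const 2)
    (Primrec.nat_mul.comp (Primrec.const 2) Primrec.id))

theorem primrec_satB : Primrec satB := by
  have hA : Primrec fun cs : List (List (ℕ × Bool)) => cs.flatten.map Prod.fst :=
    Primrec.list_map Primrec.list_flatten (Primrec.fst.comp Primrec.snd).to₂
  have h1 : Primrec fun q : (List (List (ℕ × Bool)) × List Bool) × List (ℕ × Bool) =>
      q.2.any fun l => decide
        (q.1.2.getD ((q.1.1.flatten.map Prod.fst).idxOf l.1) false = l.2) :=
    primrec_any Primrec.snd (Primrec.eq.comp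
      ((Primrec.list_getD false).comp (Primrec.snd.comp (Primrec.fst.comp Primrec.fst))
        (Primrec.list_idxOf.comp (Primrec.fst.comp Primrec.snd)
          (hA.comp (Primrec.fst.comp (Primrec.fst.comp Primrec.fst)))))
      (Primrec.snd.comp Primrec.snd)).decide.to₂
  exact primrec_any (primrec_tuples.comp (Primrec.const [true, false])
    (Primrec.list_length.comp hA)) (primrec_all Primrec.fst h1.to₂).to₂

omit [Encodable (Σ i, L.Relations i)] [Finite (Σ i, L.Relations i)] in
theorem primrec_termList :
    Primrec fun q : (ℕ × List ℕ) × ℕ => termList L q.1.1 q.1.2 q.2 := by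
  have hstep : Primrec fun T : List (List ℕ × ℕ) => T ++ (funSyms L).flatMap fun kc =>
      (tuples T kc.1).map fun ts =>
        (funSym kc.2 :: (ts.map Prod.fst).flatten, appName kc.2 (ts.map Prod.snd)) := by
    have hc : Primrec fun q : (List (List ℕ × ℕ) × ℕ × ℕ) × List (List ℕ × ℕ) => q.1.2.2 :=
      Primrec.snd.comp (Primrec.snd.comp Primrec.fst)
    exact Primrec.list_append.comp Primrec.id (Primrec.list_flatMap (Primrec.const _)
      (Primrec.list_map (primrec_tuples.comp Primrec.fst (Primrec.fst.comp Primrec.snd))
        (Primrec.pair
          (Primrec.list_cons.comp (Primrec.succ.comp (Primrec.nat_mul.comp (Primrec.const 2) hc))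
            (Primrec.list_flatten.comp (Primrec.list_map Primrec.snd
              (Primrec.fst.comp Primrec.snd).to₂)))
          (primrec_appName.comp hc (Primrec.list_map Primrec.snd
            (Primrec.snd.comp Primrec.snd).to₂))).to₂).to₂)
  have hbase : Primrec fun q : (ℕ × List ℕ) × ℕ =>
      (List.range q.1.1).map fun i => ([varSym i], q.1.2.getD i 0) :=
    Primrec.list_map (Primrec.list_range.comp (Primrec.fst.comp Primrec.fst))
      (Primrec.pair (Primrec.list_cons.comp (Primrec.nat_mul.comp (Primrec.const 2)
        (Primrec.succ.comp (Primrec.nat_mul.comp (Primrec.const 2) Primrec.snd)))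
          (Primrec.const []))
        ((Primrec.list_getD 0).comp (Primrec.snd.comp (Primrec.fst.comp Primrec.fst))
          Primrec.snd)).to₂
  refine (Primrec.nat_rec' Primrec.snd hbase
    (hstep.comp (Primrec.snd.comp Primrec.snd)).to₂).of_eq fun q => ?_
  induction q.2 with
  | zero => rfl
  | succ n ih => simp only [termList, ← ih]

theorem primrec_formList : Primrec (formList L) := by
  have hT : Primrec fun q : ℕ × ℕ => termList L q.2 [] q.1 :=
    primrec_termList.comp (Primrec.pair (Primrec.pair Primrec.snd (Primrec.const [])) Primrec.fst)
  have hatom : Primrec₂ fun d n => atomList L d n := by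
    have hn : Primrec fun q : ((ℕ × ℕ) × (List ℕ × ℕ)) × (List ℕ × ℕ) => q.1.1.2 :=
      Primrec.snd.comp (Primrec.fst.comp Primrec.fst)
    have hn' : Primrec fun q : ((ℕ × ℕ) × ℕ × ℕ) × List (List ℕ × ℕ) => q.1.1.2 :=
      Primrec.snd.comp (Primrec.fst.comp Primrec.fst)
    exact (Primrec.list_append.comp
      (Primrec.list_cons.comp (Primrec.pair Primrec.snd (Primrec.list_cons.comp
        (primrec_natSym.comp (Primrec.nat_add.comp Primrec.snd (Primrec.const 2)))
        (Primrec.const [])))
        (Primrec.list_flatMap hT (Primrec.list_map (hT.comp Primrec.fst)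
          (Primrec.pair hn (Primrec.list_cons.comp
            (primrec_termSym.comp hn (Primrec.fst.comp (Primrec.snd.comp Primrec.fst)))
            (Primrec.list_cons.comp (primrec_termSym.comp hn (Primrec.fst.comp Primrec.snd))
              (Primrec.const [])))).to₂).to₂))
      (Primrec.list_flatMap (Primrec.const (relSyms L))
        (Primrec.list_map (primrec_tuples.comp (hT.comp Primrec.fst)
            (Primrec.fst.comp Primrec.snd))
          (Primrec.pair hn' (Primrec.list_append.comp
            (Primrec.list_cons.comp
              (primrec_relSym.comp (Primrec.snd.comp (Primrec.snd.comp Primrec.fst)))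
              (Primrec.list_cons.comp (primrec_natSym.comp hn') (Primrec.const [])))
            (Primrec.list_map Primrec.snd (primrec_termSym.comp (hn'.comp Primrec.fst)
              (Primrec.fst.comp Primrec.snd)).to₂))).to₂).to₂)).to₂
  have himp : Primrec impList :=
    Primrec.list_flatMap Primrec.id (Primrec.list_flatMap Primrec.fst
      (Primrec.ite (Primrec.eq.comp (Primrec.fst.comp (Primrec.snd.comp Primrec.fst))
          (Primrec.fst.comp Primrec.snd))
        (Primrec.list_cons.comp (Primrec.pair (Primrec.fst.comp (Primrec.snd.comp Primrec.fst))
          (Primrec.list_cons.comp (Primrec.const (natSym 0)) (Primrec.list_append.comp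
            (Primrec.snd.comp (Primrec.snd.comp Primrec.fst)) (Primrec.snd.comp Primrec.snd))))
          (Primrec.const []))
        (Primrec.const [])).to₂).to₂
  have hall : Primrec allList :=
    Primrec.list_flatMap Primrec.id
      (Primrec.ite (Primrec.nat_le.comp (Primrec.const 1) (Primrec.fst.comp Primrec.snd))
        (Primrec.list_cons.comp (Primrec.pair
          (Primrec.nat_sub.comp (Primrec.fst.comp Primrec.snd) (Primrec.const 1))
          (Primrec.list_cons.comp (Primrec.const (natSym 1)) (Primrec.snd.comp Primrec.snd)))
          (Primrec.const []))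
        (Primrec.const [])).to₂
  have hstep : Primrec₂ fun (d : ℕ) (F : List (ℕ × List ℕ)) =>
      F ++ (List.range (d + 1)).flatMap (atomList L d) ++ impList F ++ allList F :=
    (Primrec.list_append.comp (Primrec.list_append.comp (Primrec.list_append.comp Primrec.snd
      (Primrec.list_flatMap (Primrec.list_range.comp (Primrec.succ.comp Primrec.fst))
        (hatom.comp (Primrec.fst.comp Primrec.fst) Primrec.snd).to₂))
      (himp.comp Primrec.snd)) (hall.comp Primrec.snd)).to₂
  refine (Primrec.nat_rec₁ [] hstep).of_eq fun d => ?_
  induction d with
  | zero => rfl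
  | succ d ih => simp only [formList, ← ih]

theorem primrec_theoryClauses {ax : ℕ → List (List ℕ)} (hax : Primrec ax) :
    Primrec (theoryClauses L ax) := by
  have hS : Primrec fun N : ℕ => List.range N := Primrec.list_range
  have hatom : Primrec₂ (atomClauses L) := by
    have hT : Primrec fun q : ℕ × List ℕ => termList L q.2.length q.2 q.1 :=
      primrec_termList.comp (Primrec.pair (Primrec.pair (Primrec.list_length.comp Primrec.snd)
        Primrec.snd) Primrec.fst)
    have h1 : Primrec fun q : ((ℕ × List ℕ) × (List ℕ × ℕ)) × (List ℕ × ℕ) =>
        formAtom [termSym q.1.1.2.length q.1.2.1, termSym q.1.1.2.length q.2.1] q.1.1.2 :=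
      primrec_formAtom.comp (Primrec.list_cons.comp
        (primrec_termSym.comp (Primrec.list_length.comp
          (Primrec.snd.comp (Primrec.fst.comp Primrec.fst)))
          (Primrec.fst.comp (Primrec.snd.comp Primrec.fst)))
        (Primrec.list_cons.comp (primrec_termSym.comp (Primrec.list_length.comp
          (Primrec.snd.comp (Primrec.fst.comp Primrec.fst))) (Primrec.fst.comp Primrec.snd))
          (Primrec.const []))) (Primrec.snd.comp (Primrec.fst.comp Primrec.fst))
    have h2 : Primrec fun q : ((ℕ × List ℕ) × (List ℕ × ℕ)) × (List ℕ × ℕ) =>
        eqAtom q.1.2.2 q.2.2 :=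
      primrec_eqAtom.comp (Primrec.snd.comp (Primrec.snd.comp Primrec.fst))
        (Primrec.snd.comp Primrec.snd)
    have hx : Primrec fun q : ((ℕ × List ℕ) × ℕ × ℕ) × List (List ℕ × ℕ) => q.1.1.2 :=
      Primrec.snd.comp (Primrec.fst.comp Primrec.fst)
    have hc : Primrec fun q : ((ℕ × List ℕ) × ℕ × ℕ) × List (List ℕ × ℕ) => q.1.2.2 :=
      Primrec.snd.comp (Primrec.snd.comp Primrec.fst)
    have h3 : Primrec fun q : ((ℕ × List ℕ) × ℕ × ℕ) × List (List ℕ × ℕ) =>
        formAtom ([relSym q.1.2.2, natSym q.1.1.2.length] ++
          q.2.map fun t => termSym q.1.1.2.length t.1) q.1.1.2 :=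
      primrec_formAtom.comp (Primrec.list_append.comp
        (Primrec.list_cons.comp (primrec_relSym.comp hc) (Primrec.list_cons.comp
          (primrec_natSym.comp (Primrec.list_length.comp hx)) (Primrec.const [])))
        (Primrec.list_map Primrec.snd (primrec_termSym.comp
          (Primrec.list_length.comp (hx.comp Primrec.fst))
          (Primrec.fst.comp Primrec.snd)).to₂)) hx
    have h4 : Primrec fun q : ((ℕ × List ℕ) × ℕ × ℕ) × List (List ℕ × ℕ) =>
        relAtom q.1.2.2 (q.2.map Prod.snd) :=
      primrec_relAtom.comp hc (Primrec.list_map Primrec.snd (Primrec.snd.comp Primrec.snd).to₂)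
    exact (Primrec.list_append.comp
      (Primrec.list_cons.comp (Primrec.list_cons.comp (Primrec.pair (primrec_formAtom.comp
          (Primrec.list_cons.comp (primrec_natSym.comp (Primrec.nat_add.comp
            (Primrec.list_length.comp Primrec.snd) (Primrec.const 2))) (Primrec.const []))
          Primrec.snd) (Primrec.const false)) (Primrec.const []))
        (Primrec.list_flatMap hT (Primrec.list_flatMap (hT.comp Primrec.fst)
          (Primrec.list_cons.comp
            (Primrec.list_cons.comp (Primrec.pair h1 (Primrec.const false))
              (Primrec.list_cons.comp (Primrec.pair h2 (Primrec.const true)) (Primrec.const [])))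
            (Primrec.list_cons.comp
              (Primrec.list_cons.comp (Primrec.pair h1 (Primrec.const true))
                (Primrec.list_cons.comp (Primrec.pair h2 (Primrec.const false))
                  (Primrec.const [])))
              (Primrec.const []))).to₂).to₂))
      (Primrec.list_flatMap (Primrec.const (relSyms L))
        (Primrec.list_flatMap (primrec_tuples.comp (hT.comp Primrec.fst)
            (Primrec.fst.comp Primrec.snd))
          (Primrec.list_cons.comp
            (Primrec.list_cons.comp (Primrec.pair h3 (Primrec.const false))
              (Primrec.list_cons.comp (Primrec.pair h4 (Primrec.const true)) (Primrec.const [])))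
            (Primrec.list_cons.comp
              (Primrec.list_cons.comp (Primrec.pair h3 (Primrec.const true))
                (Primrec.list_cons.comp (Primrec.pair h4 (Primrec.const false))
                  (Primrec.const [])))
              (Primrec.const []))).to₂).to₂)).to₂
  have himp : Primrec (impClauses L) := by
    have hp : Primrec fun q : ((ℕ × (ℕ × List ℕ)) × (ℕ × List ℕ)) × List ℕ => q.1.1.2.2 :=
      Primrec.snd.comp (Primrec.snd.comp (Primrec.fst.comp Primrec.fst))
    have hq : Primrec fun q : ((ℕ × (ℕ × List ℕ)) × (ℕ × List ℕ)) × List ℕ => q.1.2.2 :=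
      Primrec.snd.comp (Primrec.snd.comp Primrec.fst)
    have hi : Primrec fun q : ((ℕ × (ℕ × List ℕ)) × (ℕ × List ℕ)) × List ℕ =>
        formAtom (natSym 0 :: (q.1.1.2.2 ++ q.1.2.2)) q.2 :=
      primrec_formAtom.comp (Primrec.list_cons.comp (Primrec.const (natSym 0))
        (Primrec.list_append.comp hp hq)) Primrec.snd
    have a := primrec_formAtom.comp hp Primrec.snd
    have b := primrec_formAtom.comp hq Primrec.snd
    exact Primrec.list_flatMap primrec_formList (Primrec.list_flatMap
      (primrec_formList.comp Primrec.fst)
      (Primrec.ite (Primrec.eq.comp (Primrec.fst.comp (Primrec.snd.comp Primrec.fst))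
          (Primrec.fst.comp Primrec.snd))
        (Primrec.list_flatMap (primrec_tuples.comp (hS.comp (Primrec.fst.comp Primrec.fst))
            (Primrec.fst.comp (Primrec.snd.comp Primrec.fst)))
          (Primrec.list_cons.comp
            (Primrec.list_cons.comp (Primrec.pair hi (Primrec.const false))
              (Primrec.list_cons.comp (Primrec.pair a (Primrec.const false))
                (Primrec.list_cons.comp (Primrec.pair b (Primrec.const true)) (Primrec.const []))))
            (Primrec.list_cons.comp
              (Primrec.list_cons.comp (Primrec.pair hi (Primrec.const true))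
                (Primrec.list_cons.comp (Primrec.pair a (Primrec.const true)) (Primrec.const [])))
              (Primrec.list_cons.comp
                (Primrec.list_cons.comp (Primrec.pair hi (Primrec.const true))
                  (Primrec.list_cons.comp (Primrec.pair b (Primrec.const false))
                    (Primrec.const [])))
                (Primrec.const [])))).to₂)
        (Primrec.const [])).to₂).to₂
  have hallc : Primrec (allClauses L) := by
    have hw : Primrec fun q : (ℕ × (ℕ × List ℕ)) × List ℕ => q.1.2.2 :=
      Primrec.snd.comp (Primrec.snd.comp Primrec.fst)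
    have ha : Primrec fun q : (ℕ × (ℕ × List ℕ)) × List ℕ =>
        formAtom (natSym 1 :: q.1.2.2) q.2 :=
      primrec_formAtom.comp (Primrec.list_cons.comp (Primrec.const (natSym 1)) hw) Primrec.snd
    exact Primrec.list_flatMap primrec_formList
      (Primrec.ite (Primrec.nat_le.comp (Primrec.const 1) (Primrec.fst.comp Primrec.snd))
        (Primrec.list_flatMap (primrec_tuples.comp (hS.comp Primrec.fst)
            (Primrec.nat_sub.comp (Primrec.fst.comp Primrec.snd) (Primrec.const 1)))
          (Primrec.list_cons.comp
            (Primrec.list_cons.comp (Primrec.pair ha (Primrec.const true))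
              (Primrec.list_cons.comp (Primrec.pair (primrec_formAtom.comp hw
                (Primrec.list_append.comp Primrec.snd (Primrec.list_cons.comp
                  (primrec_witName.comp hw Primrec.snd) (Primrec.const []))))
                (Primrec.const false)) (Primrec.const [])))
            (Primrec.list_map (hS.comp (Primrec.fst.comp Primrec.fst))
              (Primrec.list_cons.comp (Primrec.pair (ha.comp Primrec.fst) (Primrec.const false))
                (Primrec.list_cons.comp (Primrec.pair (primrec_formAtom.comp (hw.comp Primrec.fst)
                  (Primrec.list_append.comp (Primrec.snd.comp Primrec.fst)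
                    (Primrec.list_cons.comp Primrec.snd (Primrec.const []))))
                  (Primrec.const true)) (Primrec.const []))).to₂)).to₂)
        (Primrec.const [])).to₂
  have heq : Primrec (eqClauses L) := by
    have hP : Primrec fun N : ℕ => (List.range N).flatMap fun a =>
        (List.range N).map fun b => (a, b) :=
      Primrec.list_flatMap hS (Primrec.list_map (hS.comp Primrec.fst)
        (Primrec.pair (Primrec.snd.comp Primrec.fst) Primrec.snd).to₂).to₂
    have hc : Primrec fun q : (ℕ × ℕ × ℕ) × List (ℕ × ℕ) => q.1.2.2 :=
      Primrec.snd.comp (Primrec.snd.comp Primrec.fst)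
    have hl : Primrec fun q : (ℕ × ℕ × ℕ) × List (ℕ × ℕ) => q.2.map Prod.fst :=
      Primrec.list_map Primrec.snd (Primrec.fst.comp Primrec.snd).to₂
    have hr : Primrec fun q : (ℕ × ℕ × ℕ) × List (ℕ × ℕ) => q.2.map Prod.snd :=
      Primrec.list_map Primrec.snd (Primrec.snd.comp Primrec.snd).to₂
    have hneg : Primrec fun q : (ℕ × ℕ × ℕ) × List (ℕ × ℕ) =>
        q.2.map fun p => (eqAtom p.1 p.2, false) :=
      Primrec.list_map Primrec.snd (Primrec.pair (primrec_eqAtom.comp
        (Primrec.fst.comp Primrec.snd) (Primrec.snd.comp Primrec.snd)) (Primrec.const false)).to₂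
    exact Primrec.list_append.comp (Primrec.list_append.comp (Primrec.list_append.comp
      (Primrec.list_append.comp
        (Primrec.list_map hS (Primrec.list_cons.comp (Primrec.pair
          (primrec_eqAtom.comp Primrec.snd Primrec.snd) (Primrec.const true))
          (Primrec.const [])).to₂)
        (Primrec.list_flatMap hS (Primrec.list_map (hS.comp Primrec.fst)
          (Primrec.list_cons.comp (Primrec.pair
            (primrec_eqAtom.comp (Primrec.snd.comp Primrec.fst) Primrec.snd) (Primrec.const false))
            (Primrec.list_cons.comp (Primrec.pair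
              (primrec_eqAtom.comp Primrec.snd (Primrec.snd.comp Primrec.fst))
              (Primrec.const true)) (Primrec.const []))).to₂).to₂))
      (Primrec.list_flatMap hS (Primrec.list_flatMap (hS.comp Primrec.fst)
        (Primrec.list_map (hS.comp (Primrec.fst.comp Primrec.fst))
          (Primrec.list_cons.comp (Primrec.pair (primrec_eqAtom.comp
              (Primrec.snd.comp (Primrec.fst.comp Primrec.fst)) (Primrec.snd.comp Primrec.fst))
              (Primrec.const false))
            (Primrec.list_cons.comp (Primrec.pair
              (primrec_eqAtom.comp (Primrec.snd.comp Primrec.fst) Primrec.snd)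
              (Primrec.const false))
              (Primrec.list_cons.comp (Primrec.pair (primrec_eqAtom.comp
                (Primrec.snd.comp (Primrec.fst.comp Primrec.fst)) Primrec.snd)
                (Primrec.const true)) (Primrec.const [])))).to₂).to₂).to₂))
      (Primrec.list_flatMap (Primrec.const (funSyms L))
        (Primrec.list_map (primrec_tuples.comp (hP.comp Primrec.fst)
            (Primrec.fst.comp Primrec.snd))
          (Primrec.list_cons.comp (Primrec.pair (primrec_eqAtom.comp
              (primrec_appName.comp hc hl) (primrec_appName.comp hc hr)) (Primrec.const true))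
            hneg).to₂).to₂))
      (Primrec.list_flatMap (Primrec.const (relSyms L))
        (Primrec.list_map (primrec_tuples.comp (hP.comp Primrec.fst)
            (Primrec.fst.comp Primrec.snd))
          (Primrec.list_cons.comp (Primrec.pair (primrec_relAtom.comp hc hl) (Primrec.const false))
            (Primrec.list_cons.comp (Primrec.pair (primrec_relAtom.comp hc hr)
              (Primrec.const true)) hneg)).to₂).to₂)
  have hstage : Primrec (stageClauses L) :=
    Primrec.list_append.comp (Primrec.list_append.comp (Primrec.list_append.comp
      (Primrec.list_flatMap hS (Primrec.list_flatMap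
        (primrec_tuples.comp (hS.comp Primrec.fst) Primrec.snd)
        (hatom.comp (Primrec.fst.comp Primrec.fst) Primrec.snd).to₂).to₂)
      himp) hallc) heq
  exact Primrec.list_flatMap (Primrec.list_range.comp Primrec.succ)
    (Primrec.list_append.comp (hstage.comp Primrec.snd)
      (Primrec.list_map (hax.comp Primrec.snd) (Primrec.list_cons.comp (Primrec.pair
        (primrec_formAtom.comp Primrec.snd (Primrec.const [])) (Primrec.const true))
        (Primrec.const [])).to₂)).to₂

end Computability

end FA.EffectiveCompleteness
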