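import Mathlib.ModelTheory.Satisfiability
import Mathlib.Topology.Compactness.Compact
import Mathlib.Algebra.Order.BigOperators.Group.Finset
import Mathlib.Algebra.Order.BigOperators.Group.List
import Mathlib.Topology.Separation.Hausdorff
import Fermat.Agent.EffectiveCompleteness.Search

/-!
# Consequence is unsatisfiability of a stage

In a model the names get their values by recursion on the name, so every stage is satisfied. If
every stage is satisfiable then one assignment satisfies all of them, as the space of assignments is
compact, and the names modulo equality form a model.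
-/

set_option autoImplicit false

namespace FA.EffectiveCompleteness

open FirstOrder Language

variable {L : Language.{0, 0}} [Encodable (Σ i, L.Functions i)] [Encodable (Σ i, L.Relations i)]

omit [Encodable (Σ i, L.Functions i)] [Encodable (Σ i, L.Relations i)] in
theorem realize_sentence_iff {D : Type*} [L.Structure D] (ψ : L.Sentence) (v : Empty → D)
    (f : Fin 0 → D) : BoundedFormula.Realize ψ v f ↔ D ⊨ ψ := by
  rw [Subsingleton.elim v default, Subsingleton.elim f default]
  rfl

/-- A point put after the values of a tuple of names. -/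
theorem snoc_getD {β : Type*} (g : ℕ → β) (xs : List ℕ) (c : ℕ) {n : ℕ} (h : xs.length = n) :
    (fun i : Fin (n + 1) => g ((xs ++ [c]).getD i 0)) =
      Fin.snoc (fun i : Fin n => g (xs.getD i 0)) (g c) := by
  subst h
  funext i
  refine Fin.lastCases ?_ (fun j => ?_) i
  · simp [List.getD_eq_getElem?_getD]
  · simp [List.getD_eq_getElem?_getD]

section Sound

variable {M : Type*} [L.Structure M] [Nonempty M]

/-- The value of an application, from the code of the symbol. -/
noncomputable def funVal (c : ℕ) (l : List M) : M :=
  match (Encodable.decode c : Option (Σ i, L.Functions i)) with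
  | some p => Structure.funMap p.2 fun i => l.getD i (Classical.arbitrary M)
  | none => Classical.arbitrary M

/-- A point at which the formula of a word fails. -/
noncomputable def witVal (w : List ℕ) (l : List M) : M :=
  Classical.epsilon fun m => ∃ (n : ℕ) (φ : L.BoundedFormula Empty (n + 1)),
    n = l.length ∧ formWord φ = w ∧
      ¬φ.Realize (Empty.elim : Empty → M)
        (Fin.snoc (fun i : Fin n => l.getD i (Classical.arbitrary M)) m)

variable (L) in
/-- The value of a name from the values of smaller names. -/
noncomputable def valStep (v : ℕ → M) (a : ℕ) : M :=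
  if a.unpair.1 = 0 then
    funVal (L := L) (Denumerable.ofNat (ℕ × List ℕ) a.unpair.2).1
      ((Denumerable.ofNat (ℕ × List ℕ) a.unpair.2).2.map v)
  else
    witVal (L := L) (Denumerable.ofNat (List ℕ × List ℕ) a.unpair.2).1
      ((Denumerable.ofNat (List ℕ × List ℕ) a.unpair.2).2.map v)

variable (L M) in
/-- The value of a name. -/
noncomputable def nameVal (a : ℕ) : M :=
  valStep L (fun b => if _h : b < a then nameVal b else Classical.arbitrary M) a
termination_by a

theorem nameVal_appName (c : ℕ) (as : List ℕ) :
    nameVal L M (appName c as) = funVal (L := L) c (as.map (nameVal L M)) := by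
  rw [nameVal]
  simp only [valStep, appName, Nat.unpair_pair, Denumerable.ofNat_encode, if_true]
  exact congrArg _ (List.map_congr_left fun b hb => dif_pos (lt_appName (c := c) hb))

theorem nameVal_witName (w xs : List ℕ) :
    nameVal L M (witName w xs) = witVal (L := L) w (xs.map (nameVal L M)) := by
  rw [nameVal]
  simp only [valStep, witName, Nat.unpair_pair, Denumerable.ofNat_encode, Nat.one_ne_zero, if_false]
  exact congrArg _ (List.map_congr_left fun b hb => dif_pos (lt_witName (w := w) hb))

variable (L M) in
/-- The values of a tuple of names. -/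
noncomputable def valTuple (xs : List ℕ) {n : ℕ} (i : Fin n) : M :=
  nameVal L M (xs.getD i 0)

theorem nameVal_termName (xs : List ℕ) {n : ℕ} : ∀ t : L.Term (Empty ⊕ Fin n),
    nameVal L M (termName xs t) = t.realize (Sum.elim (Empty.elim : Empty → M) (valTuple L M xs))
  | .var (.inl e) => e.elim
  | .var (.inr _) => rfl
  | .func f ts => by
    rw [termName, nameVal_appName, funVal, Encodable.encodek]
    refine congrArg (Structure.funMap f) (funext fun i => ?_)
    simp [List.getD_eq_getElem?_getD, nameVal_termName xs (ts i)]

variable (L M) in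
/-- The truth of an atom in the model. -/
noncomputable def atomTruth (a : ℕ) : Prop :=
  if a.unpair.1 = 0 then
    ∃ (n : ℕ) (φ : L.BoundedFormula Empty n),
      n = (Denumerable.ofNat (List ℕ × List ℕ) a.unpair.2).2.length ∧
      formWord φ = (Denumerable.ofNat (List ℕ × List ℕ) a.unpair.2).1 ∧
      φ.Realize (Empty.elim : Empty → M)
        (valTuple L M (Denumerable.ofNat (List ℕ × List ℕ) a.unpair.2).2)
  else if a.unpair.1 = 1 then
    nameVal L M a.unpair.2.unpair.1 = nameVal L M a.unpair.2.unpair.2
  else ∃ p : Σ i, L.Relations i,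
    Encodable.encode p = (Denumerable.ofNat (ℕ × List ℕ) a.unpair.2).1 ∧
      Structure.RelMap p.2 (valTuple L M (Denumerable.ofNat (ℕ × List ℕ) a.unpair.2).2)

theorem atomTruth_form {n : ℕ} (φ : L.BoundedFormula Empty n) {xs : List ℕ}
    (h : xs.length = n) : atomTruth L M (formAtom (formWord φ) xs) ↔
      φ.Realize (Empty.elim : Empty → M) (valTuple L M xs) := by
  simp only [atomTruth, formAtom, Nat.unpair_pair, Denumerable.ofNat_encode, if_true]
  refine ⟨?_, fun hr => ⟨n, φ, h.symm, rfl, hr⟩⟩
  rintro ⟨m, ψ, e, hw, hr⟩
  obtain rfl : m = n := e.trans h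
  rwa [← formWord_injective hw]

theorem atomTruth_eq (a b : ℕ) :
    atomTruth L M (eqAtom a b) ↔ nameVal L M a = nameVal L M b := by
  simp [atomTruth, eqAtom]

theorem atomTruth_rel {k : ℕ} (R : L.Relations k) (as : List ℕ) :
    atomTruth L M (relAtom (Encodable.encode (⟨k, R⟩ : Σ i, L.Relations i)) as) ↔
      Structure.RelMap R (valTuple L M as) := by
  simp only [atomTruth, relAtom, Nat.unpair_pair, Denumerable.ofNat_encode]
  simp only [OfNat.ofNat_ne_zero, if_false, OfNat.ofNat_ne_one]
  exact ⟨fun ⟨p, hp, h⟩ => by obtain rfl := Encodable.encode_injective hp; exact h,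
    fun h => ⟨_, rfl, h⟩⟩

variable [Finite (Σ i, L.Functions i)] [Finite (Σ i, L.Relations i)]

open scoped Classical in
/-- **A model satisfies every stage.** -/
theorem satisfies_theoryClauses {ax : ℕ → List (List ℕ)}
    (hax : ∀ N, ∀ w ∈ ax N, ∃ ψ : L.Sentence, formWord ψ = w ∧ M ⊨ ψ) (N : ℕ) :
    Satisfies (fun a => decide (atomTruth L M a)) (theoryClauses L ax N) := by
  intro c hc
  simp only [theoryClauses, List.mem_flatMap, List.mem_append, List.mem_map] at hc
  obtain ⟨S, -, hc | ⟨w, hw, rfl⟩⟩ := hc
  swap
  · obtain ⟨ψ, rfl, hψ⟩ := hax S w hw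
    refine ⟨_, List.mem_cons_self, decide_eq_true ((atomTruth_form ψ rfl).2 ?_)⟩
    exact (realize_sentence_iff ψ _ _).2 hψ
  simp only [stageClauses, List.mem_append] at hc
  rcases hc with ((hc | hc) | hc) | hc
  · obtain ⟨n, -, hc⟩ := List.mem_flatMap.1 hc
    obtain ⟨xs, hxs, hc⟩ := List.mem_flatMap.1 hc
    simp only [atomClauses, List.cons_append, List.mem_cons, List.mem_append, List.mem_flatMap,
      List.not_mem_nil, or_false] at hc
    rcases hc with rfl | ⟨t, ht, u, hu, hc⟩ | ⟨⟨k, e⟩, hkc, ts, hts, hc⟩
    · refine ⟨_, List.mem_cons_self, decide_eq_false fun h => ?_⟩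
      rw [← formWord_falsum (L := L), atomTruth_form _ rfl] at h
      exact h
    · obtain ⟨t', rfl⟩ := termList_sound ht
      obtain ⟨u', rfl⟩ := termList_sound hu
      have key : atomTruth L M (formAtom [termSym xs.length (termWord t'),
          termSym xs.length (termWord u')] xs) ↔
          atomTruth L M (eqAtom (termName xs t') (termName xs u')) := by
        rw [← formWord_equal, atomTruth_form _ rfl, atomTruth_eq, nameVal_termName,
          nameVal_termName]
        rfl
      rcases hc with rfl | rfl <;>
        by_cases h : atomTruth L M (eqAtom (termName xs t') (termName xs u')) <;>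
        simp [key, h]
    · obtain ⟨R, rfl⟩ := mem_relSyms.1 hkc
      obtain ⟨hl, hmem⟩ := mem_tuples.1 hts
      choose t ht using fun i : Fin k => termList_sound (hmem (ts[i.1]'(hl.symm ▸ i.2))
        (List.getElem_mem _))
      have e : ts = List.ofFn fun i => (termWord (t i), termName xs (t i)) :=
        List.ext_getElem (by simpa using hl) fun i h1 h2 => by simp [← ht]
      have key : atomTruth L M (formAtom ([relSym (Encodable.encode (⟨k, R⟩ : Σ i, L.Relations i)),
          natSym xs.length] ++ ts.map fun p => termSym xs.length p.1) xs) ↔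
          atomTruth L M (relAtom (Encodable.encode (⟨k, R⟩ : Σ i, L.Relations i))
            (ts.map Prod.snd)) := by
        rw [show ts.map (fun p => termSym xs.length p.1) =
          List.ofFn fun i => termSym xs.length (termWord (t i)) by rw [e]; simp [Function.comp_def],
          ← formWord_rel, atomTruth_form _ rfl, atomTruth_rel, BoundedFormula.Realize]
        refine iff_of_eq (congrArg _ (funext fun i => ?_))
        simp [e, valTuple, List.getD_eq_getElem?_getD, nameVal_termName]
      rcases hc with rfl | rfl <;>
        by_cases h : atomTruth L M (relAtom (Encodable.encode (⟨k, R⟩ : Σ i, L.Relations i))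
          (ts.map Prod.snd)) <;>
        simp_all
  · simp only [impClauses, List.mem_flatMap] at hc
    obtain ⟨⟨n, w₁⟩, hp, ⟨m, w₂⟩, hq, hc⟩ := hc
    split at hc
    · rename_i e
      obtain rfl : n = m := e
      obtain ⟨xs, hxs, hc⟩ := List.mem_flatMap.1 hc
      obtain ⟨φ, rfl⟩ : ∃ φ : L.BoundedFormula Empty n, w₁ = formWord φ := formList_sound hp
      obtain ⟨ψ, rfl⟩ : ∃ ψ : L.BoundedFormula Empty n, w₂ = formWord ψ := formList_sound hq
      have hlen := (mem_tuples.1 hxs).1
      have key : atomTruth L M (formAtom (natSym 0 :: (formWord φ ++ formWord ψ)) xs) ↔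
          (atomTruth L M (formAtom (formWord φ) xs) →
            atomTruth L M (formAtom (formWord ψ) xs)) := by
        rw [← formWord_imp, atomTruth_form _ hlen, atomTruth_form _ hlen, atomTruth_form _ hlen]
        rfl
      simp only [List.mem_cons, List.not_mem_nil, or_false] at hc
      rcases hc with rfl | rfl | rfl <;>
        by_cases h : atomTruth L M (formAtom (formWord φ) xs) <;>
        by_cases h' : atomTruth L M (formAtom (formWord ψ) xs) <;>
        simp [key, h, h']
    · cases hc
  · simp only [allClauses, List.mem_flatMap] at hc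
    obtain ⟨⟨n, w⟩, hp, hc⟩ := hc
    split at hc
    · rename_i e
      obtain ⟨m, rfl⟩ : ∃ m, n = m + 1 := ⟨n - 1, by simp at e; omega⟩
      obtain ⟨xs, hxs, hc⟩ := List.mem_flatMap.1 hc
      obtain ⟨φ, rfl⟩ : ∃ φ : L.BoundedFormula Empty (m + 1), w = formWord φ :=
        formList_sound hp
      have hlen : xs.length = m := (mem_tuples.1 hxs).1
      have hall : atomTruth L M (formAtom (natSym 1 :: formWord φ) xs) ↔
          ∀ m : M, φ.Realize (Empty.elim : Empty → M) (Fin.snoc (valTuple L M xs) m) := by
        rw [← formWord_all, atomTruth_form _ hlen]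
        rfl
      have hinst : ∀ b, atomTruth L M (formAtom (formWord φ) (xs ++ [b])) ↔
          φ.Realize (Empty.elim : Empty → M) (Fin.snoc (valTuple L M xs) (nameVal L M b)) := by
        intro b
        rw [atomTruth_form φ (show (xs ++ [b]).length = m + 1 by simp [hlen])]
        exact iff_of_eq (congrArg _ (snoc_getD (nameVal L M) xs b hlen))
      simp only [List.mem_cons, List.mem_map] at hc
      rcases hc with rfl | ⟨b, -, rfl⟩
      · by_cases h : atomTruth L M (formAtom (natSym 1 :: formWord φ) xs)
        · exact ⟨_, List.mem_cons_self, decide_eq_true h⟩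
        refine ⟨_, List.mem_cons_of_mem _ List.mem_cons_self, decide_eq_false fun hw => ?_⟩
        rw [hinst, nameVal_witName, witVal] at hw
        rw [hall, not_forall] at h
        obtain ⟨x, hx⟩ := h
        have hfun : (fun i : Fin m => (xs.map (nameVal L M)).getD i (Classical.arbitrary M)) =
            valTuple L M xs := funext fun i => by
          simp [valTuple, List.getD_eq_getElem?_getD,
            List.getElem?_eq_getElem (show i.1 < xs.length by omega)]
        obtain ⟨n', φ', hn', hw', hneg⟩ := Classical.epsilon_spec (p := fun y => ∃ (n : ℕ)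
          (χ : L.BoundedFormula Empty (n + 1)), n = (xs.map (nameVal L M)).length ∧
            formWord χ = formWord φ ∧ ¬χ.Realize (Empty.elim : Empty → M) (Fin.snoc
              (fun i : Fin n => (xs.map (nameVal L M)).getD i (Classical.arbitrary M)) y))
          ⟨x, m, φ, by simp [hlen], rfl, by rw [hfun]; exact hx⟩
        obtain rfl : n' = m := by simpa [hlen] using hn'
        rw [formWord_injective hw'] at hneg
        exact hneg ((iff_of_eq (congrArg (fun v => φ.Realize (Empty.elim : Empty → M)
          (Fin.snoc v _)) hfun)).2 hw)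
      · by_cases h : atomTruth L M (formAtom (natSym 1 :: formWord φ) xs)
        · exact ⟨_, List.mem_cons_of_mem _ List.mem_cons_self,
            decide_eq_true ((hinst b).2 (hall.1 h _))⟩
        · exact ⟨_, List.mem_cons_self, decide_eq_false h⟩
    · cases hc
  · have hcongr : ∀ {ps : List (ℕ × ℕ)}, (∀ p ∈ ps, atomTruth L M (eqAtom p.1 p.2)) →
        (ps.map Prod.fst).map (nameVal L M) = (ps.map Prod.snd).map (nameVal L M) := by
      intro ps h
      simp only [List.map_map]
      exact List.map_congr_left fun p hp => (atomTruth_eq _ _).1 (h p hp)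
    have hneg : ∀ {ps : List (ℕ × ℕ)}, ¬(∀ p ∈ ps, atomTruth L M (eqAtom p.1 p.2)) →
        ∃ l ∈ ps.map (fun p => (eqAtom p.1 p.2, false)), decide (atomTruth L M l.1) = l.2 := by
      intro ps h
      simp only [not_forall] at h
      obtain ⟨p, hp, h⟩ := h
      exact ⟨_, List.mem_map.2 ⟨p, hp, rfl⟩, decide_eq_false h⟩
    simp only [eqClauses, List.mem_append, List.mem_flatMap, List.mem_map] at hc
    rcases hc with (((⟨a, -, rfl⟩ | ⟨a, -, b, -, rfl⟩) | ⟨a, -, b, -, e, -, rfl⟩) |
      ⟨⟨k, f⟩, hkc, ps, hps, rfl⟩) | ⟨⟨k, f⟩, hkc, ps, hps, rfl⟩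
    · exact ⟨_, List.mem_cons_self, decide_eq_true ((atomTruth_eq _ _).2 rfl)⟩
    · by_cases h : nameVal L M a = nameVal L M b <;> simp [atomTruth_eq, h]
    · by_cases h : nameVal L M a = nameVal L M b <;> by_cases h' : nameVal L M b = nameVal L M e
      all_goals simp [atomTruth_eq, h, h']
      tauto
    · by_cases h : ∀ p ∈ ps, atomTruth L M (eqAtom p.1 p.2)
      · refine ⟨_, List.mem_cons_self, decide_eq_true ((atomTruth_eq _ _).2 ?_)⟩
        rw [nameVal_appName, nameVal_appName, hcongr h]
      · obtain ⟨l, hl, e⟩ := hneg h
        exact ⟨l, List.mem_cons_of_mem _ hl, e⟩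
    · by_cases h : ∀ p ∈ ps, atomTruth L M (eqAtom p.1 p.2)
      · obtain ⟨R, rfl⟩ := mem_relSyms.1 hkc
        have e : valTuple L M (ps.map Prod.fst) = (valTuple L M (ps.map Prod.snd) : Fin k → M) :=
          funext fun i => by
            have hl := (mem_tuples.1 hps).1
            have := List.getD_map (f := nameVal L M) (l := ps.map Prod.fst) (d := 0) (n := i)
            rw [valTuple, valTuple, ← this, hcongr h, List.getD_map]
        by_cases h2 : atomTruth L M (relAtom (Encodable.encode (⟨k, R⟩ : Σ i, L.Relations i))
            (ps.map Prod.fst))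
        · refine ⟨_, List.mem_cons_of_mem _ List.mem_cons_self, decide_eq_true ?_⟩
          rw [atomTruth_rel] at h2 ⊢
          rwa [← e]
        · exact ⟨_, List.mem_cons_self, decide_eq_false h2⟩
      · obtain ⟨l, hl, e⟩ := hneg h
        exact ⟨l, List.mem_cons_of_mem _ (List.mem_cons_of_mem _ hl), e⟩

end Sound

section Complete

variable [Finite (Σ i, L.Functions i)] [Finite (Σ i, L.Relations i)]
  {ax : ℕ → List (List ℕ)} {V : ℕ → Bool}

theorem Satisfies.stage (hV : ∀ N, Satisfies V (theoryClauses L ax N)) {N : ℕ}
    {c : List (ℕ × Bool)} (hc : c ∈ stageClauses L N) : ∃ l ∈ c, V l.1 = l.2 :=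
  hV N c (List.mem_flatMap.2 ⟨N, List.mem_range.2 N.lt_succ_self, List.mem_append_left _ hc⟩)

variable (hV : ∀ N, Satisfies V (theoryClauses L ax N))
include hV

theorem eqAtom_refl (a : ℕ) : V (eqAtom a a) = true := by
  have h := Satisfies.stage hV (N := a + 1) (c := [(eqAtom a a, true)]) (by
    simp only [stageClauses, eqClauses, List.mem_append, List.mem_map, List.mem_range]
    exact .inr (.inl (.inl (.inl (.inl ⟨a, a.lt_succ_self, rfl⟩)))))
  simpa using h

theorem eqAtom_symm {a b : ℕ} (h : V (eqAtom a b) = true) : V (eqAtom b a) = true := by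
  have h' := Satisfies.stage hV (N := a + b + 1) (c := [(eqAtom a b, false), (eqAtom b a, true)])
    (by
      simp only [stageClauses, eqClauses, List.mem_append, List.mem_map, List.mem_flatMap,
        List.mem_range]
      exact .inr (.inl (.inl (.inl (.inr ⟨a, by omega, b, by omega, rfl⟩)))))
  simpa [h] using h'

theorem eqAtom_trans {a b c : ℕ} (h₁ : V (eqAtom a b) = true) (h₂ : V (eqAtom b c) = true) :
    V (eqAtom a c) = true := by
  have h' := Satisfies.stage hV (N := a + b + c + 1)
    (c := [(eqAtom a b, false), (eqAtom b c, false), (eqAtom a c, true)]) (by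
      simp only [stageClauses, eqClauses, List.mem_append, List.mem_map, List.mem_flatMap,
        List.mem_range]
      exact .inr (.inl (.inl (.inr ⟨a, by omega, b, by omega, c, by omega, rfl⟩))))
  simpa [h₁, h₂] using h'

omit hV [Finite (Σ i, L.Functions i)] [Finite (Σ i, L.Relations i)] in
theorem mem_tuples_pairs {k : ℕ} (a b : Fin k → ℕ) :
    List.ofFn (fun i => (a i, b i)) ∈ tuples ((List.range (∑ i, (a i + b i) + 1)).flatMap fun x =>
      (List.range (∑ i, (a i + b i) + 1)).map fun y => (x, y)) k := by
  refine mem_tuples.2 ⟨List.length_ofFn, fun p hp => ?_⟩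
  obtain ⟨i, rfl⟩ := List.mem_ofFn.1 hp
  have := Finset.single_le_sum (f := fun i => a i + b i) (fun j _ => Nat.zero_le _)
    (Finset.mem_univ i)
  simp only [List.mem_flatMap, List.mem_map, List.mem_range]
  exact ⟨a i, by omega, b i, by omega, rfl⟩

omit hV [Finite (Σ i, L.Functions i)] [Finite (Σ i, L.Relations i)] in
theorem forall_false_of_eqAtom {k : ℕ} {a b : Fin k → ℕ} (h : ∀ i, V (eqAtom (a i) (b i)) = true)
    {l : ℕ × Bool}
    (hl : l ∈ (List.ofFn fun i => (a i, b i)).map fun p => (eqAtom p.1 p.2, false)) :
    V l.1 ≠ l.2 := by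
  obtain ⟨p, hp, rfl⟩ := List.mem_map.1 hl
  obtain ⟨i, rfl⟩ := List.mem_ofFn.1 hp
  simp [h i]

theorem appName_congr {k : ℕ} (f : L.Functions k) {a b : Fin k → ℕ}
    (h : ∀ i, V (eqAtom (a i) (b i)) = true) :
    V (eqAtom (appName (Encodable.encode (⟨k, f⟩ : Σ i, L.Functions i)) (List.ofFn a))
      (appName (Encodable.encode (⟨k, f⟩ : Σ i, L.Functions i)) (List.ofFn b))) = true := by
  obtain ⟨l, hl, e⟩ := Satisfies.stage hV (N := ∑ i, (a i + b i) + 1) (List.mem_append_right _
    (List.mem_append_left _ (List.mem_append_right _ (List.mem_flatMap.2 ⟨_, mem_funSyms.2 ⟨f, rfl⟩,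
      List.mem_map.2 ⟨_, mem_tuples_pairs a b, rfl⟩⟩))))
  rcases List.mem_cons.1 hl with rfl | hl
  · simpa [Function.comp_def] using e
  · exact absurd e (forall_false_of_eqAtom h hl)

theorem relAtom_congr {k : ℕ} (R : L.Relations k) {a b : Fin k → ℕ}
    (h : ∀ i, V (eqAtom (a i) (b i)) = true)
    (hR : V (relAtom (Encodable.encode (⟨k, R⟩ : Σ i, L.Relations i)) (List.ofFn a)) = true) :
    V (relAtom (Encodable.encode (⟨k, R⟩ : Σ i, L.Relations i)) (List.ofFn b)) = true := by
  obtain ⟨l, hl, e⟩ := Satisfies.stage hV (N := ∑ i, (a i + b i) + 1) (List.mem_append_right _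
    (List.mem_append_right _ (List.mem_flatMap.2 ⟨_, mem_relSyms.2 ⟨R, rfl⟩,
      List.mem_map.2 ⟨_, mem_tuples_pairs a b, rfl⟩⟩)))
  rcases List.mem_cons.1 hl with rfl | hl
  · simp [Function.comp_def, hR] at e
  rcases List.mem_cons.1 hl with rfl | hl
  · simpa [Function.comp_def] using e
  · exact absurd e (forall_false_of_eqAtom h hl)

/-- Names equal under the assignment. -/
def nameSetoid : Setoid ℕ where
  r a b := V (eqAtom a b) = true
  iseqv := ⟨eqAtom_refl hV, eqAtom_symm hV, eqAtom_trans hV⟩

/-- **An assignment satisfying every stage gives a model** in which a formula holds at a tuple of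
names if and only if its atom is true. -/
theorem exists_model :
    ∃ (D : Type) (_ : Nonempty D) (_ : L.Structure D) (π : ℕ → D),
      ∀ {n : ℕ} (φ : L.BoundedFormula Empty n) (xs : List ℕ), xs.length = n →
        (φ.Realize (Empty.elim : Empty → D) (fun i : Fin n => π (xs.getD i 0)) ↔
          V (formAtom (formWord φ) xs) = true) := by
  let s := nameSetoid hV
  let iS : L.Structure (Quotient s) :=
    { funMap := fun {k} f q => Quotient.mk s
        (appName (Encodable.encode (⟨k, f⟩ : Σ i, L.Functions i)) (List.ofFn fun i => (q i).out))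
      RelMap := fun {k} R q =>
        V (relAtom (Encodable.encode (⟨k, R⟩ : Σ i, L.Relations i))
          (List.ofFn fun i => (q i).out)) = true }
  refine ⟨Quotient s, ⟨Quotient.mk s 0⟩, iS, Quotient.mk s, ?_⟩
  have hmk : ∀ a, V (eqAtom (Quotient.mk s a).out a) = true := fun a => Quotient.mk_out (s := s) a
  have hterm : ∀ (xs : List ℕ) {n : ℕ} (t : L.Term (Empty ⊕ Fin n)),
      t.realize (Sum.elim (Empty.elim : Empty → Quotient s)
        fun i : Fin n => Quotient.mk s (xs.getD i 0)) = Quotient.mk s (termName xs t) := by
    intro xs n t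
    induction t with
    | var v => cases v with
      | inl e => exact e.elim
      | inr i => rfl
    | func f ts ih =>
      simp only [Term.realize_func, ih, termName]
      exact Quotient.sound (appName_congr hV f fun i => hmk _)
  intro n φ
  induction φ with
  | @falsum n =>
    intro xs hxs
    refine iff_of_false (fun h => h) ?_
    have h := Satisfies.stage hV (N := n + xs.sum + 1)
      (List.mem_append_left _ (List.mem_append_left _ (List.mem_append_left _
        (List.mem_flatMap.2 ⟨n, List.mem_range.2 (by omega), List.mem_flatMap.2 ⟨xs,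
          mem_tuples.2 ⟨hxs, fun a ha => List.mem_range.2 (by
            have := List.le_sum_of_mem ha; omega)⟩,
          List.mem_cons_self⟩⟩))))
    rw [formWord_falsum]
    simpa [hxs] using h
  | @equal n t u =>
    intro xs hxs
    rw [formWord_equal]
    refine Iff.trans (iff_of_eq (congrArg₂ Eq (hterm xs t) (hterm xs u))) ?_
    subst hxs
    let N := xs.length + xs.sum + (termWord t).length + (termWord u).length + 1
    have hmem : ∀ c ∈ [ [(formAtom [termSym xs.length (termWord t), termSym xs.length (termWord u)]
        xs, false), (eqAtom (termName xs t) (termName xs u), true)],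
        [(formAtom [termSym xs.length (termWord t), termSym xs.length (termWord u)] xs, true),
          (eqAtom (termName xs t) (termName xs u), false)] ], c ∈ stageClauses L N := fun c hc =>
      List.mem_append_left _ (List.mem_append_left _ (List.mem_append_left _
        (List.mem_flatMap.2 ⟨xs.length, List.mem_range.2 (by omega), List.mem_flatMap.2 ⟨xs,
          mem_tuples.2 ⟨rfl, fun a ha => List.mem_range.2 (by
            have := List.le_sum_of_mem ha; omega)⟩,
          List.mem_append_left _ (List.mem_cons_of_mem _ (List.mem_flatMap.2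
            ⟨_, termList_complete t (by omega), List.mem_flatMap.2
              ⟨_, termList_complete u (by omega), hc⟩⟩))⟩⟩)))
    have h1 := Satisfies.stage hV (hmem _ List.mem_cons_self)
    have h2 := Satisfies.stage hV (hmem _ (List.mem_cons_of_mem _ List.mem_cons_self))
    rw [Quotient.eq]
    change V (eqAtom _ _) = true ↔ _
    cases hE : V (eqAtom (termName xs t) (termName xs u)) <;> simp_all
  | @rel n k R ts =>
    intro xs hxs
    rw [formWord_rel]
    refine Iff.trans (iff_of_eq (congrArg (Structure.RelMap R)
      (funext fun i => hterm xs (ts i)))) ?_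
    subst hxs
    let c := Encodable.encode (⟨k, R⟩ : Σ i, L.Relations i)
    let N := xs.length + xs.sum + ∑ i, (termWord (ts i)).length + 1
    have hmem : ∀ cl ∈ [ [(formAtom ([relSym c, natSym xs.length] ++
          List.ofFn fun i => termSym xs.length (termWord (ts i))) xs, false),
          (relAtom c (List.ofFn fun i => termName xs (ts i)), true)],
        [(formAtom ([relSym c, natSym xs.length] ++
          List.ofFn fun i => termSym xs.length (termWord (ts i))) xs, true),
          (relAtom c (List.ofFn fun i => termName xs (ts i)), false)] ],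
        cl ∈ stageClauses L N := fun cl hc => by
      refine List.mem_append_left _ (List.mem_append_left _ (List.mem_append_left _
        (List.mem_flatMap.2 ⟨xs.length, List.mem_range.2 (by omega), List.mem_flatMap.2 ⟨xs,
          mem_tuples.2 ⟨rfl, fun a ha => List.mem_range.2 (by
            have := List.le_sum_of_mem ha; omega)⟩,
          List.mem_append_right _ (List.mem_flatMap.2
            ⟨_, mem_relSyms.2 ⟨R, rfl⟩, List.mem_flatMap.2
              ⟨List.ofFn fun i => (termWord (ts i), termName xs (ts i)),
                mem_tuples.2 ⟨List.length_ofFn, fun a ha => ?_⟩, ?_⟩⟩)⟩⟩)))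
      · obtain ⟨i, rfl⟩ := List.mem_ofFn.1 ha
        have := Finset.single_le_sum (f := fun i => (termWord (ts i)).length)
          (fun j _ => Nat.zero_le _) (Finset.mem_univ i)
        exact termList_complete _ (by omega)
      · simpa [Function.comp_def, c] using hc
    have h1 := Satisfies.stage hV (hmem _ List.mem_cons_self)
    have h2 := Satisfies.stage hV (hmem _ (List.mem_cons_of_mem _ List.mem_cons_self))
    have e : V (relAtom c (List.ofFn fun i => (Quotient.mk s (termName xs (ts i))).out)) = true ↔
        V (relAtom c (List.ofFn fun i => termName xs (ts i))) = true :=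
      ⟨relAtom_congr hV R fun i => hmk _, relAtom_congr hV R fun i => eqAtom_symm hV (hmk _)⟩
    refine e.trans ?_
    cases hE : V (relAtom c (List.ofFn fun i => termName xs (ts i))) <;> simp_all [c]
  | @imp n φ ψ ihφ ihψ =>
    intro xs hxs
    rw [BoundedFormula.realize_imp, ihφ xs hxs, ihψ xs hxs, formWord_imp]
    let N := n + xs.sum + Encodable.encode (formWord φ) + Encodable.encode (formWord ψ) + 1
    have hmem : ∀ c ∈ [ [(formAtom (natSym 0 :: (formWord φ ++ formWord ψ)) xs, false),
          (formAtom (formWord φ) xs, false), (formAtom (formWord ψ) xs, true)],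
        [(formAtom (natSym 0 :: (formWord φ ++ formWord ψ)) xs, true),
          (formAtom (formWord φ) xs, true)],
        [(formAtom (natSym 0 :: (formWord φ ++ formWord ψ)) xs, true),
          (formAtom (formWord ψ) xs, false)] ], c ∈ stageClauses L N := fun c hc => by
      refine List.mem_append_left _ (List.mem_append_left _ (List.mem_append_right _
        (List.mem_flatMap.2 ⟨_, formList_complete φ (d := N) (by omega), List.mem_flatMap.2
          ⟨_, formList_complete ψ (d := N) (by omega), ?_⟩⟩)))
      rw [if_pos rfl]
      exact List.mem_flatMap.2 ⟨xs, mem_tuples.2 ⟨hxs, fun a ha => List.mem_range.2 (by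
        have := List.le_sum_of_mem ha; omega)⟩, hc⟩
    have h1 := Satisfies.stage hV (hmem _ List.mem_cons_self)
    have h2 := Satisfies.stage hV (hmem _ (List.mem_cons_of_mem _ List.mem_cons_self))
    have h3 := Satisfies.stage hV
      (hmem _ (List.mem_cons_of_mem _ (List.mem_cons_of_mem _ List.mem_cons_self)))
    revert h1 h2 h3
    cases hI : V (formAtom (natSym 0 :: (formWord φ ++ formWord ψ)) xs) <;>
      cases hE : V (formAtom (formWord φ) xs) <;> cases hE' : V (formAtom (formWord ψ) xs) <;>
      simp [hI, hE, hE']
  | @all n φ ih =>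
    intro xs hxs
    rw [BoundedFormula.realize_all, formWord_all]
    have hinst : ∀ b, φ.Realize (Empty.elim : Empty → Quotient s)
        (Fin.snoc (fun i : Fin n => Quotient.mk s (xs.getD i 0)) (Quotient.mk s b)) ↔
          V (formAtom (formWord φ) (xs ++ [b])) = true := fun b => by
      rw [← snoc_getD (Quotient.mk s) xs b hxs]
      exact ih _ (by simp [hxs])
    have hmem : ∀ (N : ℕ), n + 1 + xs.sum + Encodable.encode (formWord φ) < N →
        ∀ c ∈ [(formAtom (natSym 1 :: formWord φ) xs, true),
            (formAtom (formWord φ) (xs ++ [witName (formWord φ) xs]), false)] ::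
          (List.range N).map (fun b => [(formAtom (natSym 1 :: formWord φ) xs, false),
            (formAtom (formWord φ) (xs ++ [b]), true)]), c ∈ stageClauses L N := by
      intro N hN c hc
      refine List.mem_append_left _ (List.mem_append_right _ (List.mem_flatMap.2
        ⟨_, formList_complete φ (d := N) (by omega), ?_⟩))
      rw [if_pos (Nat.le_add_left 1 n)]
      exact List.mem_flatMap.2 ⟨xs, mem_tuples.2 ⟨hxs, fun a ha => List.mem_range.2 (by
        have := List.le_sum_of_mem ha; omega)⟩, hc⟩
    refine ⟨fun h => ?_, fun h x => ?_⟩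
    · have h1 := Satisfies.stage hV (hmem _ (Nat.lt_succ_self _) _ List.mem_cons_self)
      have h2 := (hinst (witName (formWord φ) xs)).1 (h _)
      simpa [h2] using h1
    · induction x using Quotient.inductionOn with
      | h b =>
        have h1 := Satisfies.stage hV (hmem (n + 1 + xs.sum + Encodable.encode (formWord φ) + b + 1)
          (by omega) _ (List.mem_cons_of_mem _
            (List.mem_map.2 ⟨b, List.mem_range.2 (by omega), rfl⟩)))
        exact (hinst b).2 (by simpa [h] using h1)

end Complete

/-- Every finite stage satisfiable gives one assignment for all stages and a further clause. -/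
theorem exists_assignment [Finite (Σ i, L.Functions i)] [Finite (Σ i, L.Relations i)]
    {ax : ℕ → List (List ℕ)} (extra : List (List (ℕ × Bool)))
    (h : ∀ N, ∃ V, Satisfies V (theoryClauses L ax N ++ extra)) :
    ∃ V, ∀ N, Satisfies V (theoryClauses L ax N ++ extra) := by
  have hclosed : ∀ cs : List (List (ℕ × Bool)), IsClosed {V : ℕ → Bool | Satisfies V cs} := by
    intro cs
    have e : {V : ℕ → Bool | Satisfies V cs} =
        ⋂ c ∈ {c | c ∈ cs}, ⋃ l ∈ {l | l ∈ c}, {V : ℕ → Bool | V l.1 = l.2} := by
      ext V
      simp [Satisfies]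
    rw [e]
    exact isClosed_biInter fun c _ => c.finite_toSet.isClosed_biUnion fun l _ =>
      isClosed_eq (continuous_apply l.1) continuous_const
  obtain ⟨V, hV⟩ := IsCompact.nonempty_iInter_of_sequence_nonempty_isCompact_isClosed
    (fun N => {V : ℕ → Bool | Satisfies V (theoryClauses L ax N ++ extra)})
    (fun N V hV c hc => hV c (by
      rcases List.mem_append.1 hc with hc | hc
      · obtain ⟨K, hK, hc⟩ := List.mem_flatMap.1 hc
        exact List.mem_append_left _ (List.mem_flatMap.2
          ⟨K, List.mem_range.2 (Nat.lt_succ_of_lt (List.mem_range.1 hK)), hc⟩)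
      · exact List.mem_append_right _ hc))
    h ((hclosed _).isCompact) (fun N => hclosed _)
  exact ⟨V, fun N => Set.mem_iInter.1 hV N⟩

variable [Finite (Σ i, L.Functions i)] [Finite (Σ i, L.Relations i)]

/-- **Gödel's completeness theorem, effective form.** A sentence follows from a theory if and only
if some stage is unsatisfiable with the sentence false. -/
theorem models_iff_exists_unsat (T : L.Theory) {ax : ℕ → List (List ℕ)}
    (hsound : ∀ N, ∀ w ∈ ax N, ∃ ψ ∈ T, formWord ψ = w)
    (hcomplete : ∀ ψ ∈ T, ∃ N, formWord ψ ∈ ax N) (φ : L.Sentence) :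
    T ⊨ᵇ φ ↔ ∃ N,
      satB (theoryClauses L ax N ++ [ [(formAtom (formWord φ) [], false)] ]) = false := by
  rw [Theory.models_sentence_iff]
  constructor
  · intro hT
    by_contra hN
    push Not at hN
    obtain ⟨V, hV⟩ := exists_assignment [ [(formAtom (formWord φ) [], false)] ] fun N =>
      (satB_iff _).1 (eq_true_of_ne_false (hN N))
    have hV' : ∀ N, Satisfies V (theoryClauses L ax N) := fun N c hc =>
      hV N c (List.mem_append_left _ hc)
    obtain ⟨D, hD, iS, π, hπ⟩ := exists_model hV'
    have hreal : ∀ ψ : L.Sentence, D ⊨ ψ ↔ V (formAtom (formWord ψ) []) = true := fun ψ => by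
      rw [← hπ ψ [] rfl]
      exact (realize_sentence_iff ψ _ _).symm
    have hmodel : D ⊨ T := (Theory.model_iff _).2 fun ψ hψ => by
      obtain ⟨N, hN⟩ := hcomplete ψ hψ
      obtain ⟨l, hl, e⟩ := hV' N [(formAtom (formWord ψ) [], true)] (List.mem_flatMap.2
        ⟨N, List.mem_range.2 N.lt_succ_self, List.mem_append_right _ (List.mem_map.2
          ⟨_, hN, rfl⟩)⟩)
      rw [List.mem_singleton] at hl
      subst hl
      exact (hreal ψ).2 e
    obtain ⟨l, hl, e⟩ := hV 0 [(formAtom (formWord φ) [], false)]
      (List.mem_append_right _ List.mem_cons_self)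
    rw [List.mem_singleton] at hl
    subst hl
    have h1 := (hreal φ).1 (hT (Theory.ModelType.of T D))
    rw [show V (formAtom (formWord φ) []) = false from e] at h1
    cases h1
  · rintro ⟨N, hN⟩ M
    classical
    by_contra hφ
    have hsat : ∃ V,
        Satisfies V (theoryClauses L ax N ++ [ [(formAtom (formWord φ) [], false)] ]) := by
      refine ⟨fun a => decide (atomTruth L M a), fun c hc => ?_⟩
      rcases List.mem_append.1 hc with hc | hc
      · exact satisfies_theoryClauses (M := M) (fun K w hw => by
          obtain ⟨ψ, hψ, rfl⟩ := hsound K w hw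
          exact ⟨ψ, rfl, Theory.realize_sentence_of_mem T hψ⟩) N c hc
      · rw [List.mem_singleton] at hc
        subst hc
        refine ⟨_, List.mem_cons_self, decide_eq_false fun h => hφ ?_⟩
        exact (realize_sentence_iff φ _ _).1 ((atomTruth_form (M := M) φ (xs := []) rfl).1 h)
    rw [← satB_iff, hN] at hsat
    cases hsat

end FA.EffectiveCompleteness
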